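/-
IHARA track, package (D) [IMG/REP] (helper7), file 3: **the action of the Hecke ring on the whole
module** when the `θ`-part is everything (the [MOD] field `ρM` of helper2's `IhaHecke`).

* `ihiAct`          : `IhdImg 𝒪 a θ →ₐ[𝒪] End_𝒪 M` when `ihdPart 𝒪 a θ = ⊤`, with `ihiAct_pi`
                      (`T ↦ a T`), `ihiAct_injective`, `ihiAct_commute` (it commutes with every
                      endomorphism commuting with the Hecke operators, e.g. the diamond operators);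
* `ihi_part_eq_top` : criterion for `ihdPart 𝒪 a θ = ⊤`: every `a (T_ℓ) - c_ℓ` (`c_ℓ` a lift of
                      `θ (T_ℓ)`) is nilpotent on `M ⧸ 𝔪 M`.
-/
import Mathlib
import Fermat.Agent.Lib.Ihara.Dat.Img

set_option autoImplicit false
set_option linter.unusedSectionVars false
set_option linter.unusedVariables false
set_option linter.style.haveILetI false

open IsLocalRing
open scoped TensorProduct

namespace Fermat.Agent.Ihara

section Red

variable {R : Type*} [CommRing R] (I : Ideal R) {M : Type*} [AddCommGroup M] [Module R M]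

theorem ihi_smul_top_le_comap (f : Module.End R M) :
    (I • ⊤ : Submodule R M) ≤ (I • ⊤ : Submodule R M).comap f := by
  rw [← Submodule.map_le_iff_le_comap, Submodule.map_smul'']
  exact smul_mono_right _ le_top

/-- reduction of endomorphisms modulo `I M` -/
noncomputable def ihiRed : Module.End R M →+* Module.End R (M ⧸ (I • ⊤ : Submodule R M)) where
  toFun f := (I • ⊤ : Submodule R M).mapQ _ f (ihi_smul_top_le_comap I f)
  map_one' := by
    ext x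
    rfl
  map_mul' f g := by
    ext x
    rfl
  map_zero' := by
    ext x
    rfl
  map_add' f g := by
    ext x
    rfl

theorem ihiRed_apply_mk (f : Module.End R M) (x : M) :
    ihiRed I f (Submodule.Quotient.mk x) = Submodule.Quotient.mk (f x) := rfl

theorem ihiRed_eq_zero_iff (f : Module.End R M) :
    ihiRed I f = 0 ↔ ∀ x, f x ∈ (I • ⊤ : Submodule R M) := by
  constructor
  · intro h x
    have h1 := LinearMap.congr_fun h (Submodule.Quotient.mk x)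
    rw [ihiRed_apply_mk, LinearMap.zero_apply, Submodule.Quotient.mk_eq_zero] at h1
    exact h1
  · intro h
    apply LinearMap.ext
    intro y
    induction y using Submodule.Quotient.induction_on with
    | H x =>
      rw [ihiRed_apply_mk, LinearMap.zero_apply, Submodule.Quotient.mk_eq_zero]
      exact h x

theorem ihiRed_algebraMap_of_mem (c : R) (hc : c ∈ I) :
    ihiRed I (algebraMap R (Module.End R M) c) = 0 := by
  rw [ihiRed_eq_zero_iff]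
  intro x
  rw [Module.algebraMap_end_apply]
  exact Submodule.smul_mem_smul hc Submodule.mem_top

end Red

section Act

variable (𝒪 : Type) [CommRing 𝒪] [IsDomain 𝒪] [IsDiscreteValuationRing 𝒪]
  [IsAdicComplete (maximalIdeal 𝒪) 𝒪]
  {N : ℕ} [NeZero N] {S : Set ℕ}
  {M : Type*} [AddCommGroup M] [Module 𝒪 M]
  (a : CuspForm.heckeAlgebra N 2 S →+* Module.End 𝒪 M)
  (θ : CuspForm.heckeAlgebra N 2 S →+* ResidueField 𝒪)

/-- **the action of the Hecke ring on `M`**, when `M` is its own `θ`-part -/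
noncomputable def ihiAct (hpart : ihdPart 𝒪 a θ = ⊤) : IhdImg 𝒪 a θ →ₐ[𝒪] Module.End 𝒪 M :=
  (((LinearEquiv.ofTop (ihdPart 𝒪 a θ) hpart).conjAlgEquiv 𝒪 :
    Module.End 𝒪 (ihdPart 𝒪 a θ) ≃ₐ[𝒪] Module.End 𝒪 M) :
      Module.End 𝒪 (ihdPart 𝒪 a θ) →ₐ[𝒪] Module.End 𝒪 M).comp (ihdImgAct 𝒪 a θ)

theorem ihiAct_apply (hpart : ihdPart 𝒪 a θ = ⊤) (z : IhdImg 𝒪 a θ) (x : M) :
    ihiAct 𝒪 a θ hpart z x =
      ((ihdImgAct 𝒪 a θ z ⟨x, hpart.symm ▸ Submodule.mem_top⟩ : ihdPart 𝒪 a θ) : M) := rfl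

theorem ihiAct_mk (hpart : ihdPart 𝒪 a θ = ⊤) (b : IhdB 𝒪 N S) :
    ihiAct 𝒪 a θ hpart (ihdImgMk 𝒪 a θ (ihdLocMk 𝒪 (ihdMax 𝒪 θ) b)) = ihdAct 𝒪 a b := by
  ext x
  rw [ihiAct_apply, ihdImgAct_mk, ihdPartAct_mk, ihdPartActB_apply]

theorem ihiAct_pi (hpart : ihdPart 𝒪 a θ = ⊤) (t : CuspForm.heckeAlgebra N 2 S) :
    ihiAct 𝒪 a θ hpart (ihdImgPi 𝒪 a θ t) = a t := by
  ext x
  rw [ihiAct_apply, ihdImgAct_pi]

theorem ihiAct_injective (hpart : ihdPart 𝒪 a θ = ⊤) :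
    Function.Injective (ihiAct 𝒪 a θ hpart) := by
  intro z z' h
  apply ihdImgAct_injective 𝒪 a θ
  exact ((LinearEquiv.ofTop (ihdPart 𝒪 a θ) hpart).conjAlgEquiv 𝒪).injective h

/-- the Hecke ring commutes with every endomorphism commuting with the Hecke operators -/
theorem ihiAct_commute (hpart : ihdPart 𝒪 a θ = ⊤) (f : Module.End 𝒪 M)
    (hf : ∀ t, Commute f (a t)) (z : IhdImg 𝒪 a θ) : Commute f (ihiAct 𝒪 a θ hpart z) := by
  obtain ⟨t, rfl⟩ := ihdImgMk_surjective 𝒪 a θ z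
  obtain ⟨b, rfl⟩ := ihdLocMk_surjective 𝒪 (ihdMax 𝒪 θ) t
  rw [ihiAct_mk]
  exact ihdAct_commute_of_forall 𝒪 a f hf b

/-- **criterion**: `M` is its own `θ`-part if the Hecke operators are residually scalar-plus-nilpotent
with the scalars prescribed by `θ` -/
theorem ihi_part_eq_top [Module.Finite 𝒪 M] (hNS : ∀ q : ℕ, q.Prime → q ∣ N → q ∈ S)
    (hnil : ∀ (ℓ : ℕ) (hℓ : ℓ.Prime) (hℓN : ¬ ℓ ∣ N) (hℓS : ℓ ∉ S), ∃ c : 𝒪,
      residue 𝒪 c = θ (CuspForm.heckeAlgebra.T hℓ hℓN hℓS) ∧ ∃ k : ℕ, ∀ x : M,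
        ((a (CuspForm.heckeAlgebra.T hℓ hℓN hℓS) - algebraMap 𝒪 (Module.End 𝒪 M) c) ^ k) x
          ∈ maximalIdeal 𝒪 • (⊤ : Submodule 𝒪 M)) :
    ihdPart 𝒪 a θ = ⊤ := by
  classical
  set φ : IhdB 𝒪 N S →+* Module.End 𝒪 (M ⧸ (maximalIdeal 𝒪 • ⊤ : Submodule 𝒪 M)) :=
    (ihiRed (maximalIdeal 𝒪)).comp (ihdAct 𝒪 a : IhdB 𝒪 N S →+* Module.End 𝒪 M) with hφ
  have hφ_apply : ∀ b, φ b = ihiRed (maximalIdeal 𝒪) (ihdAct 𝒪 a b) := fun b => rfl
  set J : Ideal (IhdB 𝒪 N S) := (RingHom.ker φ).radical with hJ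
  -- the property of being residually scalar
  let P : IhdB 𝒪 N S → Prop := fun b =>
    ∃ c : 𝒪, residue 𝒪 c = ihdTheta 𝒪 θ b ∧ b - algebraMap 𝒪 (IhdB 𝒪 N S) c ∈ J
  have P_alg : ∀ c : 𝒪, P (algebraMap 𝒪 (IhdB 𝒪 N S) c) := by
    intro c
    refine ⟨c, ?_, ?_⟩
    · rw [AlgHom.commutes]
      rfl
    · rw [sub_self]
      exact J.zero_mem
  have P_add : ∀ b b', P b → P b' → P (b + b') := by
    rintro b b' ⟨c, hc, hm⟩ ⟨c', hc', hm'⟩
    refine ⟨c + c', ?_, ?_⟩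
    · rw [map_add, map_add, hc, hc']
    · have : b + b' - algebraMap 𝒪 (IhdB 𝒪 N S) (c + c') =
          (b - algebraMap 𝒪 (IhdB 𝒪 N S) c) + (b' - algebraMap 𝒪 (IhdB 𝒪 N S) c') := by
        rw [map_add]
        ring
      rw [this]
      exact J.add_mem hm hm'
  have P_mul : ∀ b b', P b → P b' → P (b * b') := by
    rintro b b' ⟨c, hc, hm⟩ ⟨c', hc', hm'⟩
    refine ⟨c * c', ?_, ?_⟩
    · rw [map_mul, map_mul, hc, hc']
    · have : b * b' - algebraMap 𝒪 (IhdB 𝒪 N S) (c * c') =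
          (b - algebraMap 𝒪 (IhdB 𝒪 N S) c) * b' +
            algebraMap 𝒪 (IhdB 𝒪 N S) c * (b' - algebraMap 𝒪 (IhdB 𝒪 N S) c') := by
        rw [map_mul]
        ring
      rw [this]
      exact J.add_mem (J.mul_mem_right _ hm) (J.mul_mem_left _ hm')
  have P_gen : ∀ (ℓ : ℕ) (hℓ : ℓ.Prime) (hℓN : ¬ ℓ ∣ N) (hℓS : ℓ ∉ S),
      P ((1 : 𝒪) ⊗ₜ[ℤ] CuspForm.heckeAlgebra.T hℓ hℓN hℓS) := by
    intro ℓ hℓ hℓN hℓS
    obtain ⟨c, hc, k, hk⟩ := hnil ℓ hℓ hℓN hℓS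
    refine ⟨c, ?_, ?_⟩
    · rw [ihdTheta_tmul, map_one, one_mul, hc]
    · rw [hJ, Ideal.mem_radical_iff]
      refine ⟨k, ?_⟩
      rw [RingHom.mem_ker, hφ_apply, ihiRed_eq_zero_iff]
      intro x
      have h1 : ihdAct 𝒪 a (((1 : 𝒪) ⊗ₜ[ℤ] CuspForm.heckeAlgebra.T hℓ hℓN hℓS -
          algebraMap 𝒪 (IhdB 𝒪 N S) c) ^ k) =
          (a (CuspForm.heckeAlgebra.T hℓ hℓN hℓS) - algebraMap 𝒪 (Module.End 𝒪 M) c) ^ k := by
        rw [map_pow, map_sub, ihdAct_tmul, one_smul, AlgHom.commutes]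
      rw [h1]
      exact hk x
  have P_incl : ∀ t : CuspForm.heckeAlgebra N 2 S, P ((1 : 𝒪) ⊗ₜ[ℤ] t) := by
    rintro ⟨x, hx⟩
    induction hx using Algebra.adjoin_induction with
    | mem x hx =>
      rcases hx with ⟨ℓ, hℓ, hℓN, hℓS, rfl⟩ | ⟨q, hqN, hq, hqS, rfl⟩
      · exact P_gen ℓ hℓ hℓN hℓS
      · exact absurd (hNS q hq hqN) hqS
    | algebraMap r =>
      have e : (⟨algebraMap ℤ _ r, Subalgebra.algebraMap_mem _ r⟩ : CuspForm.heckeAlgebra N 2 S)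
          = ((r : ℤ) : CuspForm.heckeAlgebra N 2 S) := by
        apply Subtype.ext
        simp
      have e2 : (1 : 𝒪) ⊗ₜ[ℤ] ((r : ℤ) : CuspForm.heckeAlgebra N 2 S) =
          algebraMap 𝒪 (IhdB 𝒪 N S) ((r : ℤ) : 𝒪) := by
        rw [Algebra.TensorProduct.algebraMap_apply, Algebra.algebraMap_self_apply]
        calc (1 : 𝒪) ⊗ₜ[ℤ] ((r : ℤ) : CuspForm.heckeAlgebra N 2 S)
            = (1 : 𝒪) ⊗ₜ[ℤ] (r • (1 : CuspForm.heckeAlgebra N 2 S)) := by rw [zsmul_one]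
          _ = (r • (1 : 𝒪)) ⊗ₜ[ℤ] (1 : CuspForm.heckeAlgebra N 2 S) := by
              rw [TensorProduct.tmul_smul, TensorProduct.smul_tmul']
          _ = ((r : ℤ) : 𝒪) ⊗ₜ[ℤ] (1 : CuspForm.heckeAlgebra N 2 S) := by rw [zsmul_one]
      rw [e, e2]
      exact P_alg _
    | add x y hx hy ihx ihy =>
      have e : (⟨x + y, Subalgebra.add_mem _ hx hy⟩ : CuspForm.heckeAlgebra N 2 S)
          = ⟨x, hx⟩ + ⟨y, hy⟩ := rfl
      rw [e, TensorProduct.tmul_add]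
      exact P_add _ _ ihx ihy
    | mul x y hx hy ihx ihy =>
      have e : (⟨x * y, Subalgebra.mul_mem _ hx hy⟩ : CuspForm.heckeAlgebra N 2 S)
          = ⟨x, hx⟩ * ⟨y, hy⟩ := rfl
      have e2 : (1 : 𝒪) ⊗ₜ[ℤ] ((⟨x, hx⟩ : CuspForm.heckeAlgebra N 2 S) * ⟨y, hy⟩) =
          ((1 : 𝒪) ⊗ₜ[ℤ] (⟨x, hx⟩ : CuspForm.heckeAlgebra N 2 S)) *
            ((1 : 𝒪) ⊗ₜ[ℤ] (⟨y, hy⟩ : CuspForm.heckeAlgebra N 2 S)) := by
        rw [Algebra.TensorProduct.tmul_mul_tmul, one_mul]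
      rw [e, e2]
      exact P_mul _ _ ihx ihy
  have P_all : ∀ b : IhdB 𝒪 N S, P b := by
    intro b
    induction b using TensorProduct.induction_on with
    | zero =>
      have := P_alg 0
      rwa [map_zero] at this
    | tmul c t =>
      have e : c ⊗ₜ[ℤ] t = algebraMap 𝒪 (IhdB 𝒪 N S) c * ((1 : 𝒪) ⊗ₜ[ℤ] t) := by
        rw [Algebra.TensorProduct.algebraMap_apply, Algebra.algebraMap_self_apply,
          Algebra.TensorProduct.tmul_mul_tmul, mul_one, one_mul]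
      rw [e]
      exact P_mul _ _ (P_alg c) (P_incl t)
    | add x y hx hy => exact P_add _ _ hx hy
  -- the complementary idempotent
  set f : IhdB 𝒪 N S := 1 - ihdIdem 𝒪 (ihdMax 𝒪 θ) with hf
  have hfid : IsIdempotentElem f := (ihdIdem_idem 𝒪 (ihdMax 𝒪 θ)).one_sub
  have hfmem : f ∈ ihdMax 𝒪 θ := ihdIdem_one_sub_mem 𝒪 (ihdMax 𝒪 θ)
  have hfJ : f ∈ J := by
    obtain ⟨c, hc, hm⟩ := P_all f
    rw [(mem_ihdMax 𝒪 θ f).mp hfmem, residue_eq_zero_iff] at hc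
    have h1 : algebraMap 𝒪 (IhdB 𝒪 N S) c ∈ J := by
      apply Ideal.le_radical
      rw [RingHom.mem_ker, hφ_apply, AlgHom.commutes]
      exact ihiRed_algebraMap_of_mem _ c hc
    have := J.add_mem hm h1
    rwa [sub_add_cancel] at this
  have hfker : φ f = 0 := by
    rw [hJ, Ideal.mem_radical_iff] at hfJ
    obtain ⟨k, hk⟩ := hfJ
    rw [RingHom.mem_ker] at hk
    cases k with
    | zero =>
      rw [pow_zero, map_one] at hk
      rw [← mul_one (φ f), hk, mul_zero]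
    | succ k =>
      rwa [hfid.pow_succ_eq] at hk
  rw [hφ_apply, ihiRed_eq_zero_iff] at hfker
  -- Nakayama
  have hfid' : ∀ x, ihdAct 𝒪 a f (ihdAct 𝒪 a f x) = ihdAct 𝒪 a f x := by
    intro x
    rw [← Module.End.mul_apply, ← map_mul, hfid.eq]
  have hle : LinearMap.range (ihdAct 𝒪 a f) ≤
      maximalIdeal 𝒪 • LinearMap.range (ihdAct 𝒪 a f) := by
    rintro _ ⟨x, rfl⟩
    rw [← hfid' x, LinearMap.range_eq_map, ← Submodule.map_smul'']
    exact Submodule.mem_map_of_mem (hfker x)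
  have hfg : (LinearMap.range (ihdAct 𝒪 a f)).FG := by
    rw [LinearMap.range_eq_map]
    exact Submodule.FG.map _ Module.Finite.fg_top
  have hbot : LinearMap.range (ihdAct 𝒪 a f) = ⊥ :=
    Submodule.eq_bot_of_le_smul_of_le_jacobson_bot (maximalIdeal 𝒪) _ hfg hle
      (IsLocalRing.jacobson_eq_maximalIdeal ⊥ bot_ne_top).ge
  have hzero : ihdAct 𝒪 a f = 0 := LinearMap.range_eq_bot.mp hbot
  have hone : ihdProj 𝒪 a θ = 1 := by
    rw [hf, map_sub, map_one, sub_eq_zero] at hzero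
    exact hzero.symm
  rw [ihdPart, hone]
  exact LinearMap.range_eq_top.mpr (fun x => ⟨x, rfl⟩)

end Act

end Fermat.Agent.Ihara
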