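/-
IHARA track, package (D) [IMG/REP] (helper7), file 4: **points** of the Hecke ring of a Hecke module and
of commutative algebras of endomorphisms, and their eigenvectors.

* `ihi_exists_points`      : finitely many jointly injective points `IhdImg 𝒪 a θ →ₐ[𝒪] R_i`
                             (`R_i` complete discrete valuation rings, finite over `𝒪`);
* `ihi_point_eigen`        : a point `ψ : T'' →ₐ[𝒪] R` of a commutative finite `𝒪`-algebra acting
                             faithfully on a finite free `𝒪`-module `W` is the eigensystem of a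
                             non-zero vector of `R ⊗ W`;
* `ihi_exists_point_eigen` : a local such `T''` acting on `W ≠ 0` has a point (hence an eigenvector
                             over a finite extension of `𝒪`) — for the joint eigenvectors of the Hecke
                             ring and a finite abelian `p`-group of diamond operators on a stable
                             saturated submodule.
-/
import Mathlib
import Fermat.Agent.Lib.Ihara.Dat.ImgRep
import Fermat.Agent.Lib.Ihara.Dat.Eigen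
import Fermat.Agent.Lib.Alpha.S32.Points

set_option autoImplicit false
set_option linter.unusedSectionVars false
set_option linter.unusedVariables false
set_option linter.style.haveILetI false

open IsLocalRing
open scoped TensorProduct

namespace Fermat.Agent.Ihara

open Fermat.Agent.Alpha (AlpqPoint)

section EigenHom

variable {𝒪' : Type*} [CommRing 𝒪'] [IsDomain 𝒪'] [IsNoetherianRing 𝒪']
  {T' : Type*} [CommRing T'] [Algebra 𝒪' T'] [Module.Finite 𝒪' T']
  {M' : Type*} [AddCommGroup M'] [Module 𝒪' M'] [Module.Finite 𝒪' M']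

/-- `ihd_exists_eigenvector` for an injective algebra homomorphism to the endomorphisms -/
theorem ihi_exists_eigenvector_hom (ρ : T' →ₐ[𝒪'] Module.End 𝒪' M')
    (hinj : Function.Injective ρ) (ψ : T' →ₐ[𝒪'] 𝒪') :
    ∃ x : M', x ≠ 0 ∧ ∀ t : T', ρ t x = ψ t • x := by
  letI : Module T' M' := Module.compHom M' (ρ : T' →+* Module.End 𝒪' M')
  have hsmul : ∀ (t : T') (x : M'), t • x = ρ t x := fun _ _ => rfl
  haveI : IsScalarTower 𝒪' T' M' := ⟨fun c t x => by
    rw [hsmul, hsmul, map_smul, LinearMap.smul_apply]⟩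
  haveI : Module.Finite T' M' := Module.Finite.of_restrictScalars_finite 𝒪' T' M'
  obtain ⟨x, hx0, hx⟩ := ihd_exists_eigenvector (𝒪' := 𝒪') (T' := T') (M' := M')
    (fun t ht => by
      apply hinj
      rw [map_zero]
      ext x
      rw [← hsmul, ht, LinearMap.zero_apply]) ψ
  refine ⟨x, hx0, fun t => ?_⟩
  rw [← hsmul, hx t, algebraMap_smul]

end EigenHom

section Points

variable {𝒪 : Type} [CommRing 𝒪] [IsDomain 𝒪] [IsDiscreteValuationRing 𝒪]
  [IsAdicComplete (maximalIdeal 𝒪) 𝒪] [Finite (ResidueField 𝒪)] [CharZero 𝒪]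

/-- **jointly injective points of the Hecke ring of a Hecke module** -/
theorem ihi_exists_points {N : ℕ} [NeZero N] {S : Finset ℕ}
    (θ : CuspForm.heckeAlgebra N 2 (↑S : Set ℕ) →+* ResidueField 𝒪)
    {M : Type*} [AddCommGroup M] [Module 𝒪 M] [Module.IsTorsionFree 𝒪 M]
    (a : CuspForm.heckeAlgebra N 2 (↑S : Set ℕ) →+* Module.End 𝒪 M)
    [Nontrivial (ihdPart 𝒪 a θ)] (hNS : ∀ q : ℕ, q.Prime → q ∣ N → q ∈ S) :
    ∃ (n : ℕ) (P : Fin n → AlpqPoint 𝒪 (IhdImg 𝒪 a θ)),
      ∀ t : IhdImg 𝒪 a θ, (∀ i, (P i).ψ t = 0) → t = 0 := by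
  haveI : IsReduced (IhdImg 𝒪 a θ) := ihdImg_isReduced θ a hNS
  exact Fermat.Agent.Alpha.alpq_exists_points

variable {T'' : Type} [CommRing T''] [Algebra 𝒪 T''] [Module.Finite 𝒪 T'']
  {W : Type*} [AddCommGroup W] [Module 𝒪 W] [Module.Finite 𝒪 W] [Module.Free 𝒪 W]

/-- the action of `R ⊗ T''` on `R ⊗ W` -/
noncomputable def ihiActR (R : Type) [CommRing R] [Algebra 𝒪 R]
    (act : T'' →ₐ[𝒪] Module.End 𝒪 W) : R ⊗[𝒪] T'' →ₐ[R] Module.End R (R ⊗[𝒪] W) :=
  Algebra.TensorProduct.lift (Algebra.ofId R (Module.End R (R ⊗[𝒪] W)))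
    ((Module.End.baseChangeHom 𝒪 R W).comp act)
    (fun r t => Algebra.commute_algebraMap_left r _)

theorem ihiActR_tmul (R : Type) [CommRing R] [Algebra 𝒪 R]
    (act : T'' →ₐ[𝒪] Module.End 𝒪 W) (r : R) (t : T'') (x : R ⊗[𝒪] W) :
    ihiActR R act (r ⊗ₜ[𝒪] t) x = r • (act t).baseChange R x := by
  rw [ihiActR, Algebra.TensorProduct.lift_tmul, Algebra.ofId_apply, Module.End.mul_apply,
    Module.algebraMap_end_apply]
  rfl

/-- faithfulness is preserved by a finite free base change -/
theorem ihiActR_injective (R : Type) [CommRing R] [Algebra 𝒪 R] [Module.Free 𝒪 R]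
    (act : T'' →ₐ[𝒪] Module.End 𝒪 W) (hinj : Function.Injective act) :
    Function.Injective (ihiActR R act) := by
  classical
  rw [injective_iff_map_eq_zero]
  intro t' ht'
  let b := Module.Free.chooseBasis 𝒪 R
  let eT := TensorProduct.equivFinsuppOfBasisLeft (N := T'') b
  let eW := TensorProduct.equivFinsuppOfBasisLeft (N := W) b
  have key : ∀ (s : R ⊗[𝒪] T'') (w : W) i,
      eW (ihiActR R act s ((1 : R) ⊗ₜ[𝒪] w)) i = act (eT s i) w := by
    intro s w i
    induction s using TensorProduct.induction_on with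
    | zero => simp
    | tmul r t =>
      rw [ihiActR_tmul, LinearMap.baseChange_tmul, TensorProduct.smul_tmul', smul_eq_mul, mul_one,
        TensorProduct.equivFinsuppOfBasisLeft_apply_tmul_apply,
        TensorProduct.equivFinsuppOfBasisLeft_apply_tmul_apply, map_smul, LinearMap.smul_apply]
    | add x y hx hy =>
      rw [map_add, LinearMap.add_apply, map_add, Finsupp.add_apply, hx, hy, map_add,
        Finsupp.add_apply, map_add, LinearMap.add_apply]
  apply eT.injective
  rw [map_zero]
  ext i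
  rw [Finsupp.zero_apply]
  apply hinj
  rw [map_zero]
  ext w
  rw [← key, ht', LinearMap.zero_apply, map_zero, Finsupp.zero_apply, LinearMap.zero_apply]

/-- **every point of a faithful commutative algebra of endomorphisms is an eigensystem** -/
theorem ihi_point_eigen (act : T'' →ₐ[𝒪] Module.End 𝒪 W) (hinj : Function.Injective act)
    (P : AlpqPoint 𝒪 T'') :
    ∃ x : P.R ⊗[𝒪] W, x ≠ 0 ∧ ∀ t : T'', (act t).baseChange P.R x = P.ψ t • x := by
  haveI : Module.IsTorsionFree 𝒪 P.R := Module.isTorsionFree_iff_algebraMap_injective.mpr P.inj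
  haveI : Module.Free 𝒪 P.R := Module.free_of_finite_type_torsion_free'
  let ψ' : P.R ⊗[𝒪] T'' →ₐ[P.R] P.R :=
    Algebra.TensorProduct.lift (AlgHom.id P.R P.R) P.ψ (fun _ _ => Commute.all _ _)
  obtain ⟨x, hx0, hx⟩ := ihi_exists_eigenvector_hom (ihiActR P.R act)
    (ihiActR_injective P.R act hinj) ψ'
  refine ⟨x, hx0, fun t => ?_⟩
  have h1 := hx ((1 : P.R) ⊗ₜ[𝒪] t)
  rw [ihiActR_tmul, one_smul] at h1
  rw [h1]
  congr 1
  show Algebra.TensorProduct.lift (AlgHom.id P.R P.R) P.ψ _ ((1 : P.R) ⊗ₜ[𝒪] t) = P.ψ t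
  rw [Algebra.TensorProduct.lift_tmul, map_one, one_mul]

/-- **a local commutative algebra of endomorphisms of a non-zero finite free module has a point,
hence an eigenvector over a finite extension of `𝒪`** -/
theorem ihi_exists_point_eigen [IsLocalRing T''] [Nontrivial W]
    (act : T'' →ₐ[𝒪] Module.End 𝒪 W) (hinj : Function.Injective act) :
    ∃ (P : AlpqPoint 𝒪 T'') (x : P.R ⊗[𝒪] W), x ≠ 0 ∧
      ∀ t : T'', (act t).baseChange P.R x = P.ψ t • x := by
  haveI : Module.IsTorsionFree 𝒪 (Module.End 𝒪 W) := by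
    refine Module.IsTorsionFree.of_smul_eq_zero fun r f h => ?_
    by_cases hr : r = 0
    · exact Or.inl hr
    · refine Or.inr ?_
      ext w
      have h1 := LinearMap.congr_fun h w
      rw [LinearMap.smul_apply] at h1
      rw [LinearMap.zero_apply] at h1 ⊢
      exact (smul_eq_zero.mp h1).resolve_left hr
  haveI : Module.IsTorsionFree 𝒪 T'' :=
    Function.Injective.moduleIsTorsionFree act hinj (fun r t => map_smul act r t)
  haveI : Module.Free 𝒪 T'' := Module.free_of_finite_type_torsion_free'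
  haveI : IsNoetherianRing T'' := IsNoetherianRing.of_finite 𝒪 T''
  obtain ⟨𝔭, h𝔭, -⟩ := Ideal.exists_minimalPrimes_le (bot_le : (⊥ : Ideal T'') ≤ maximalIdeal T'')
  have h𝔭' : 𝔭 ∈ minimalPrimes T'' := h𝔭
  haveI : 𝔭.IsPrime := h𝔭.1.1
  obtain ⟨P, -⟩ := Fermat.Agent.Alpha.alpq_exists_point (𝒪 := 𝒪) 𝔭
    (Fermat.Agent.Alpha.alpq_comap_eq_bot h𝔭')
  obtain ⟨x, hx0, hx⟩ := ihi_point_eigen act hinj P
  exact ⟨P, x, hx0, hx⟩

end Points

end Fermat.Agent.Ihara
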