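/-
IHARA track, package (D) [IMG/REP] (helper7), file 1: **the determinant of a `p`-adic representation
over a local ring whose Frobenius determinants are `ℓ` is the cyclotomic character**, and the
determinants of Frobenius and inertia elements of a representation with cyclotomic determinant.

* `ihi_detIsCyclotomic` : `A` local, `p ∈ 𝔪_A`, every `(p^n)` contains a power of `𝔪_A`,
  `det ρ(Frob_ℓ) = ℓ` for all `ℓ ∉ S` ⟹ `ρ.DetIsCyclotomic p` (Frobenius density in division form);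
* `ihi_det_frob`    : `det ρ(Frob_ℓ) = ℓ` for `ℓ ≠ p` (Noetherian local `A`);
* `ihi_det_inertia` : `det ρ(σ) = 1` for `σ` in an inertia group at `ℓ ≠ p`.
-/
import Mathlib
import Fermat.Agent.Lib.T1.Asm.DetTrick
import Fermat.Agent.Lib.S31.Trace.FrobPow

set_option autoImplicit false
set_option linter.unusedSectionVars false
set_option linter.unusedVariables false
set_option linter.style.haveILetI false

open IsLocalRing Polynomial Fermat.Agent.CFT Fermat.Agent.CFT.Pinf Fermat.Agent.T1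

namespace Fermat.Agent.Ihara

local notation "Qbar" => AlgebraicClosure ℚ
local notation "GQ" => (AlgebraicClosure ℚ ≃ₐ[ℚ] AlgebraicClosure ℚ)

section General

variable {A : Type} [CommRing A] [IsLocalRing A]

/-- **the determinant is the cyclotomic character** -/
theorem ihi_detIsCyclotomic {p : ℕ} (hp : p.Prime) (ρ : GaloisRepAdic A)
    (hpA : (p : A) ∈ maximalIdeal A)
    (hpow : ∀ n : ℕ, ∃ m : ℕ, maximalIdeal A ^ m ≤ Ideal.span {((p ^ n : ℕ) : A)})
    (S : Finset ℕ) (hpS : p ∈ S)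
    (hdet : ∀ l : ℕ, l.Prime → l ∉ S → ∀ P : ValuationSubring Qbar, P.LiesOverPrime l →
      ∀ φ : GQ, P.IsFrobeniusAt φ l → LinearMap.det (ρ.ρ φ) = (l : A)) :
    ρ.DetIsCyclotomic p := by
  classical
  haveI := Fermat.Agent.Lib.Helper6.isGalois_rat_algebraicClosure
  refine ⟨hpA, fun n σ a hσ => ?_⟩
  obtain ⟨m, hm⟩ := hpow n
  set b : Module.Basis (Fin 2) A ρ.V := Module.finBasisOfFinrankEq A ρ.V ρ.finrank_eq with hb
  obtain ⟨L₀, hL₀fin, hL₀⟩ := ρ.isAdicContinuous m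
  haveI := hL₀fin
  haveI : NeZero (p ^ n) := ⟨pow_ne_zero n hp.ne_zero⟩
  set ζ := zetaQbar (p ^ n) with hζdef
  have hζ : IsPrimitiveRoot ζ (p ^ n) := zetaQbar_spec (p ^ n)
  haveI : FiniteDimensional ℚ (IntermediateField.adjoin ℚ {ζ}) :=
    IntermediateField.adjoin.finiteDimensional ((hζ.isIntegral (NeZero.pos _)).tower_top (R := ℤ))
  set F₀ : IntermediateField ℚ Qbar := L₀ ⊔ IntermediateField.adjoin ℚ {ζ} with hF₀
  haveI : FiniteDimensional ℚ F₀ := IntermediateField.finiteDimensional_sup L₀ _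
  set L := IntermediateField.normalClosure ℚ F₀ Qbar with hL
  haveI : FiniteDimensional ℚ L := normalClosure.is_finiteDimensional ℚ F₀ Qbar
  haveI : Normal ℚ L := normalClosure.normal ℚ F₀ Qbar
  have hF₀L : F₀ ≤ L := IntermediateField.le_normalClosure F₀
  have hζL : ζ ∈ L :=
    hF₀L ((le_sup_right : IntermediateField.adjoin ℚ {ζ} ≤ F₀)
      (IntermediateField.mem_adjoin_simple_self ℚ ζ))
  obtain ⟨l, hl, hlS, P, φ, hPl, hφ, e, he⟩ :=
    Fermat.Agent.S31T.s31t_exists_frobenius_pow L σ S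
  have hlp : l ≠ p := fun h => hlS (h ▸ hpS)
  have hcop : Nat.Coprime (p ^ n) l :=
    Nat.Coprime.pow_left n ((Nat.coprime_primes hp hl).2 hlp.symm)
  -- `g = (φ ^ e)⁻¹ σ` is trivial on `L`
  set g := (φ ^ e)⁻¹ * σ with hg
  have hgL : ∀ x ∈ L, g x = x := by
    intro x hx
    change (φ ^ e)⁻¹ (σ x) = x
    rw [he x hx]
    exact (φ ^ e).symm_apply_apply x
  have hσeq : σ = φ ^ e * g := by rw [hg, mul_inv_cancel_left]
  have hgc : TeCongr (maximalIdeal A ^ m) (ρ.ρ g) 1 := fun v =>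
    hL₀ g (fun x hx => hgL x (hF₀L ((le_sup_left : L₀ ≤ F₀) hx))) v
  have hgd : LinearMap.det (ρ.ρ g) - 1 ∈ Ideal.span {((p ^ n : ℕ) : A)} := by
    have h1 := hgc.det_sub_mem b
    rw [map_one] at h1
    exact hm h1
  -- the exponents
  have hφζ : (φ ^ e) ζ = ζ ^ (l ^ e) :=
    te_pow_apply_rootOfUnity φ l (fun μ hμ =>
      Fermat.Agent.TW.twp_frobenius_rootOfUnity hPl hφ (NeZero.pos _) hcop hμ) e ζ hζ.pow_eq_one
  have hmod : l ^ e ≡ a [MOD p ^ n] := by
    apply te_exponent_modEq (p ^ n)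
    rw [← hφζ, ← hσ ζ hζ.pow_eq_one]
    exact (he ζ hζL).symm
  have hla : ((l ^ e : ℕ) : A) - (a : A) ∈ Ideal.span {((p ^ n : ℕ) : A)} :=
    te_cast_sub_mem_of_modEq (R := A) hmod
  have hdφ : LinearMap.det (ρ.ρ (φ ^ e)) = ((l ^ e : ℕ) : A) := by
    rw [map_pow, map_pow, hdet l hl hlS P hPl φ hφ, Nat.cast_pow]
  have hfin : LinearMap.det (ρ.ρ σ) - (a : A)
      = ((l ^ e : ℕ) : A) * (LinearMap.det (ρ.ρ g) - 1) + (((l ^ e : ℕ) : A) - (a : A)) := by
    rw [hσeq, map_mul, map_mul, hdφ]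
    ring
  rw [hfin]
  exact Ideal.add_mem _ (Ideal.mul_mem_left _ _ hgd) hla

/-- the determinant of a Frobenius element at `l ≠ p` -/
theorem ihi_det_frob [IsNoetherianRing A] {p : ℕ} (hp : p.Prime) (ρ : GaloisRepAdic A)
    (hdet : ρ.DetIsCyclotomic p) {l : ℕ} (hl : l.Prime) (hlp : l ≠ p)
    {P : ValuationSubring Qbar} (hP : P.LiesOverPrime l) {φ : GQ} (hφ : P.IsFrobeniusAt φ l) :
    LinearMap.det (ρ.ρ φ) = (l : A) := by
  have hall : ∀ n : ℕ, LinearMap.det (ρ.ρ φ) - (l : A) ∈ maximalIdeal A ^ n := by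
    intro n
    have hcop : Nat.Coprime (p ^ n) l :=
      Nat.Coprime.pow_left n ((Nat.coprime_primes hp hl).2 hlp.symm)
    have h1 := hdet.2 n φ l (fun μ hμ =>
      Fermat.Agent.TW.twp_frobenius_rootOfUnity hP hφ (pow_pos hp.pos n) hcop hμ)
    have h2 : Ideal.span {((p ^ n : ℕ) : A)} ≤ maximalIdeal A ^ n := by
      rw [Nat.cast_pow, ← Ideal.span_singleton_pow]
      exact Ideal.pow_right_mono ((Ideal.span_singleton_le_iff_mem _).2 hdet.1) n
    exact h2 h1
  have h1 := Ideal.iInf_pow_eq_bot_of_isLocalRing (maximalIdeal A) Ideal.IsPrime.ne_top'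
  have h2 : LinearMap.det (ρ.ρ φ) - (l : A) ∈ ⨅ i : ℕ, maximalIdeal A ^ i := by
    rw [Submodule.mem_iInf]
    exact hall
  rw [h1] at h2
  exact sub_eq_zero.1 h2

/-- the determinant of an inertia element at `l ≠ p` -/
theorem ihi_det_inertia [IsNoetherianRing A] {p : ℕ} (hp : p.Prime) (ρ : GaloisRepAdic A)
    (hdet : ρ.DetIsCyclotomic p) {l : ℕ} (hl : l.Prime) (hlp : l ≠ p)
    {P : ValuationSubring Qbar} (hP : P.LiesOverPrime l) {σ : GQ}
    (hσ : σ ∈ P.inertiaSubgroupIn ℚ) :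
    LinearMap.det (ρ.ρ σ) = 1 := by
  have hσ' := (Fermat.Agent.CFT.Bridge.mem_inertiaSubgroupIn_iff P σ).mp hσ
  have hall : ∀ n : ℕ, LinearMap.det (ρ.ρ σ) - 1 ∈ maximalIdeal A ^ n := by
    intro n
    have hcop : Nat.Coprime (p ^ n) l :=
      Nat.Coprime.pow_left n ((Nat.coprime_primes hp hl).2 hlp.symm)
    have h1 := hdet.2 n σ 1 (fun μ hμ => by
      rw [pow_one]
      have hμP : μ ∈ P :=
        Fermat.Agent.CFT.Bridge.mem_valuationSubring_of_pow_eq_one P (pow_pos hp.pos n) hμ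
      exact Fermat.Agent.TW.twp_rootOfUnity_eq_of_valuation_lt P (pow_pos hp.pos n) hcop hP
        (by rw [← map_pow, hμ, map_one]) hμ (hσ'.2 μ hμP))
    rw [Nat.cast_one] at h1
    have h2 : Ideal.span {((p ^ n : ℕ) : A)} ≤ maximalIdeal A ^ n := by
      rw [Nat.cast_pow, ← Ideal.span_singleton_pow]
      exact Ideal.pow_right_mono ((Ideal.span_singleton_le_iff_mem _).2 hdet.1) n
    exact h2 h1
  have h1 := Ideal.iInf_pow_eq_bot_of_isLocalRing (maximalIdeal A) Ideal.IsPrime.ne_top'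
  have h2 : LinearMap.det (ρ.ρ σ) - 1 ∈ ⨅ i : ℕ, maximalIdeal A ^ i := by
    rw [Submodule.mem_iInf]
    exact hall
  rw [h1] at h2
  exact sub_eq_zero.1 h2

end General

end Fermat.Agent.Ihara
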